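import Fermat.Agent.S55.H604.SUnitLattice
import Mathlib.RingTheory.RootsOfUnity.Basic

/-!
# S55 / arithmetic leaf: the power index of the `S`-units

`[E_S : E_S^n] = #μ_n(L) · n ^ (#∞ + #S - 1)`.  In particular, if `L` contains the `n`-th roots of
unity, `[E_S : E_S^n] = n ^ (#∞ + #S)` (the input `[K^S : (K^S)^n] = n^s` of the second inequality).
-/

set_option autoImplicit false

open NumberField IsDedekindDomain Module

namespace Fermat.Agent.S55.H604

variable (L : Type*) [Field L] [NumberField L] (S : Finset (HeightOneSpectrum (𝓞 L)))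

variable {L} in
/-- roots of unity are `S`-units. -/
lemma rootsOfUnity_le_sUnit (n : ℕ) (hn : n ≠ 0) : rootsOfUnity n L ≤ SUnit L S := by
  intro u hu v _
  have h1 : (u : L) ^ n = 1 := by
    have := congrArg Units.val ((mem_rootsOfUnity n u).1 hu)
    simpa using this
  have h2 : (v.valuation L (u : L)) ^ n = 1 := by
    rw [← map_pow, h1, map_one]
  exact (pow_eq_one_iff.1 h2).resolve_right hn

/-- the `n`-torsion of the `S`-units is `μ_n(L)`. -/
noncomputable def kerNsmulEquiv (n : ℕ) (hn : n ≠ 0) :
    (nsmulAddMonoidHom (α := Additive (SUnit L S)) n).ker ≃ rootsOfUnity n L where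
  toFun x := ⟨((Additive.toMul x.1 : SUnit L S) : Lˣ), by
    have h := x.2
    rw [AddMonoidHom.mem_ker] at h
    have h' : (Additive.toMul x.1 : SUnit L S) ^ n = 1 := h
    rw [mem_rootsOfUnity]
    exact_mod_cast congrArg Subtype.val h'⟩
  invFun u := ⟨Additive.ofMul ⟨u.1, rootsOfUnity_le_sUnit S n hn u.2⟩, by
    rw [AddMonoidHom.mem_ker]
    have h := (mem_rootsOfUnity n u.1).1 u.2
    change (⟨u.1, rootsOfUnity_le_sUnit S n hn u.2⟩ : SUnit L S) ^ n = 1
    exact Subtype.ext (by simpa using h)⟩
  left_inv x := rfl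
  right_inv u := rfl

/-- **`S`-unit power index.** `[E_S : E_S^n] = #μ_n(L) · n ^ (#∞ + #S - 1)`. -/
theorem index_range_pow_sUnit (n : ℕ) (hn : n ≠ 0) :
    (powMonoidHom n : SUnit L S →* SUnit L S).range.index =
      Nat.card (rootsOfUnity n L) * n ^ (Fintype.card (InfinitePlace L) + S.card - 1) := by
  rw [← Nat.card_congr (kerNsmulEquiv L S n hn), ← index_range_nsmul_sUnit L S n hn,
    ← Subgroup.index_toAddSubgroup]
  rfl

/-- If `L` contains a primitive `n`-th root of unity then `[E_S : E_S^n] = n ^ (#∞ + #S)`. -/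
theorem index_range_pow_sUnit_of_primitiveRoot (n : ℕ) (hn : n ≠ 0) {ζ : L}
    (hζ : IsPrimitiveRoot ζ n) :
    (powMonoidHom n : SUnit L S →* SUnit L S).range.index =
      n ^ (Fintype.card (InfinitePlace L) + S.card) := by
  have : NeZero n := ⟨hn⟩
  rw [index_range_pow_sUnit L S n hn, hζ.card_rootsOfUnity]
  have hpos : 0 < Fintype.card (InfinitePlace L) := Fintype.card_pos
  have : Fintype.card (InfinitePlace L) + S.card =
      (Fintype.card (InfinitePlace L) + S.card - 1) + 1 := by omega
  rw [this, pow_succ, Nat.add_sub_cancel, mul_comm]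


/-- **Dirichlet's `S`-unit theorem (finite generation).** -/
instance moduleFinite_sUnit : Module.Finite ℤ (Additive (SUnit L S)) := by
  rw [Module.finite_def]
  refine Submodule.fg_of_fg_map_of_fg_inf_ker (logSLattice L S).toIntLinearMap ?_ ?_
  · rw [Submodule.map_top, LinearMap.range_eq_top.mpr (by exact logSLattice_surjective L S),
      ← Module.finite_def]
    infer_instance
  · rw [inf_of_le_right le_top, AddMonoidHom.coe_toIntLinearMap_ker,
      Submodule.fg_iff_addSubgroup_fg, AddSubgroup.toIntSubmodule_toAddSubgroup,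
      ← AddGroup.fg_iff_addSubgroup_fg]
    exact AddGroup.fg_of_finite

instance monoidFG_sUnit : Monoid.FG (SUnit L S) := by
  rw [Monoid.fg_iff_add_fg, ← AddGroup.fg_iff_addMonoid_fg, ← Module.Finite.iff_addGroup_fg]
  infer_instance

instance groupFG_sUnit : Group.FG (SUnit L S) := by
  rw [Group.fg_iff_monoid_fg]
  infer_instance

end Fermat.Agent.S55.H604
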