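import Mathlib.GroupTheory.IndexNSmul
import Mathlib.GroupTheory.Index
import Mathlib.LinearAlgebra.FreeModule.PID

/-!
# S55 / arithmetic leaf: `[A : nA] = |A[n]| · n ^ r` for an extension of a free module of rank `r`
by a finite group
-/

set_option autoImplicit false

namespace Fermat.Agent.S55.H604

open Module

/-- If `f : A → Λ` is a surjective homomorphism with finite kernel onto a free `ℤ`-module of finite
rank `r`, then `[A : nA] = |A[n]| · n ^ r`. -/
theorem index_range_nsmul_of_finite_ker {A Λ : Type*} [AddCommGroup A] [AddCommGroup Λ]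
    [Module.Free ℤ Λ] [Module.Finite ℤ Λ] (f : A →+ Λ) (hf : Function.Surjective f)
    [Finite f.ker] (n : ℕ) (hn : n ≠ 0) :
    (nsmulAddMonoidHom (α := A) n).range.index =
      Nat.card (nsmulAddMonoidHom (α := A) n).ker * n ^ Module.finrank ℤ Λ := by
  have htf : ∀ x : Λ, n • x = 0 → x = 0 := by
    intro x hx
    have := AddSubgroup.nsmulAddMonoidHom_injective_of_isTorsionFree (M := Λ) hn
    exact this (by simpa using hx)
  set N : AddSubgroup A := (nsmulAddMonoidHom (α := A) n).range with hN
  set K : AddSubgroup A := f.ker with hK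
  -- step 1
  have h1 : N.index = N.relIndex (N ⊔ K) * (N ⊔ K).index :=
    (AddSubgroup.relIndex_mul_index le_sup_left).symm
  -- step 2
  have hmap : N.map f = (nsmulAddMonoidHom (α := Λ) n).range := by
    ext y
    constructor
    · rintro ⟨_, ⟨a, rfl⟩, rfl⟩
      exact ⟨f a, by simp⟩
    · rintro ⟨z, rfl⟩
      obtain ⟨a, rfl⟩ := hf z
      exact ⟨n • a, ⟨a, rfl⟩, by simp⟩
  have h2 : (N ⊔ K).index = n ^ Module.finrank ℤ Λ := by
    rw [← AddSubgroup.comap_map_eq, hmap, AddSubgroup.index_comap_of_surjective _ hf,
      AddSubgroup.index_range_nsmul]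
  -- step 3
  have h3 : N.relIndex (N ⊔ K) = N.relIndex K := AddSubgroup.relIndex_sup_left K N
  have h4 : N.addSubgroupOf K = (nsmulAddMonoidHom (α := K) n).range := by
    ext ⟨x, hx⟩
    rw [AddSubgroup.mem_addSubgroupOf]
    constructor
    · rintro ⟨a, ha⟩
      have ha' : n • a = x := ha
      have haK : a ∈ K := by
        rw [hK, AddMonoidHom.mem_ker]
        apply htf
        rw [← map_nsmul, ha']
        exact hx
      exact ⟨⟨a, haK⟩, Subtype.ext ha'⟩
    · rintro ⟨⟨a, haK⟩, ha⟩
      exact ⟨a, congrArg Subtype.val ha⟩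
  have h5 : N.relIndex K = Nat.card (nsmulAddMonoidHom (α := K) n).ker := by
    rw [AddSubgroup.relIndex, h4]
    exact AddSubgroup.index_range
  have h6 : Nat.card (nsmulAddMonoidHom (α := K) n).ker =
      Nat.card (nsmulAddMonoidHom (α := A) n).ker := by
    refine Nat.card_congr
      { toFun := fun x => ⟨x.1.1, by
          have := x.2
          rw [AddMonoidHom.mem_ker] at this ⊢
          exact congrArg Subtype.val this⟩
        invFun := fun a => ⟨⟨a.1, by
          have := a.2
          rw [AddMonoidHom.mem_ker] at this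
          rw [hK, AddMonoidHom.mem_ker]
          apply htf
          rw [← map_nsmul]
          have h' : n • a.1 = 0 := this
          rw [h', map_zero]⟩, by
          have := a.2
          rw [AddMonoidHom.mem_ker] at this ⊢
          exact Subtype.ext this⟩
        left_inv := fun x => rfl
        right_inv := fun a => rfl }
  rw [h1, h2, h3, h5, h6]

end Fermat.Agent.S55.H604
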