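import Fermat.Agent.S55.H604.SUnitLog

/-!
# S55 / HQU (B): finiteness — `logS` has finite fibres over bounded sets
-/

set_option autoImplicit false

open NumberField IsDedekindDomain

namespace Fermat.Agent.S55.H604

variable {L : Type*} [Field L] [NumberField L]

/-- the absolute norm of `v` has `v`-adic absolute value at most `1/2`. -/
lemma finitePlace_mk_absNorm_le (v : HeightOneSpectrum (𝓞 L)) :
    FinitePlace.mk v ((Ideal.absNorm v.asIdeal : ℕ) : L) ≤ 1 / 2 := by
  set N : ℕ := Ideal.absNorm v.asIdeal with hN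
  have hN2 : 2 ≤ N := NumberField.HeightOneSpectrum.one_lt_absNorm v
  have hmem : ((N : ℕ) : 𝓞 L) ∈ v.asIdeal := Ideal.absNorm_mem v.asIdeal
  have hne : ((N : ℕ) : 𝓞 L) ≠ 0 := by
    have : (N : 𝓞 L) = ((N : ℤ) : 𝓞 L) := by push_cast; rfl
    rw [this]
    intro h
    have := (FaithfulSMul.algebraMap_injective ℤ (𝓞 L)) (by simpa using h : algebraMap ℤ (𝓞 L) (N : ℤ) = algebraMap ℤ (𝓞 L) 0)
    omega
  have h1 := FinitePlace.apply_mul_absNorm_pow_eq_one (FinitePlace.mk v) hne
  rw [FinitePlace.maximalIdeal_mk] at h1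
  have hcast : ((((N : ℕ) : 𝓞 L) : L)) = ((N : ℕ) : L) := by simp
  rw [hcast] at h1
  have hm : 1 ≤ multiplicity v.asIdeal (Ideal.span {((N : ℕ) : 𝓞 L)}) := by
    have hdvd : v.asIdeal ∣ Ideal.span {((N : ℕ) : 𝓞 L)} := by
      rw [Ideal.dvd_span_singleton]
      exact hmem
    have hfin : FiniteMultiplicity v.asIdeal (Ideal.span {((N : ℕ) : 𝓞 L)}) := by
      apply FiniteMultiplicity.of_not_isUnit
      · exact fun h => v.isPrime.ne_top (Ideal.isUnit_iff.1 h)
      · simpa using hne
    exact hfin.le_multiplicity_of_pow_dvd (by simpa using hdvd)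
  set m := multiplicity v.asIdeal (Ideal.span {((N : ℕ) : 𝓞 L)}) with hmdef
  have hNpos : (0 : ℝ) < N := by positivity
  have hNm : (2 : ℝ) ≤ (N : ℝ) ^ m := by
    calc (2 : ℝ) ≤ N := by exact_mod_cast hN2
      _ = (N : ℝ) ^ 1 := (pow_one _).symm
      _ ≤ (N : ℝ) ^ m := pow_le_pow_right₀ (by exact_mod_cast (by omega : 1 ≤ N)) hm
  have hval : FinitePlace.mk v ((N : ℕ) : L) = 1 / (N : ℝ) ^ m := by
    rw [eq_div_iff (by positivity)]
    exact h1
  rw [hval]
  exact one_div_le_one_div_of_le (by norm_num) hNm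


/-- natural numbers have finite absolute values `≤ 1`. -/
lemma finitePlace_mk_natCast_le_one (v : HeightOneSpectrum (𝓞 L)) (n : ℕ) :
    FinitePlace.mk v (n : L) ≤ 1 := by
  rw [FinitePlace.mk_apply, FinitePlace.norm_embedding]
  exact NumberField.HeightOneSpectrum.adicAbv_natCast_le_one L v n

variable (S : Finset (HeightOneSpectrum (𝓞 L)))

/-- the clearing denominator `d = (∏_{v ∈ S} N v)^k`. -/
noncomputable def clearDenom (k : ℕ) : ℕ := (∏ v ∈ S, Ideal.absNorm v.asIdeal) ^ k

lemma clearDenom_ne_zero (k : ℕ) : clearDenom S k ≠ 0 := by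
  unfold clearDenom
  refine pow_ne_zero _ (Finset.prod_ne_zero_iff.2 fun v _ => ?_)
  have := NumberField.HeightOneSpectrum.one_lt_absNorm v
  omega

lemma finitePlace_mk_clearDenom_le {v : HeightOneSpectrum (𝓞 L)} (hv : v ∈ S) (k : ℕ) :
    FinitePlace.mk v ((clearDenom S k : ℕ) : L) ≤ (1 / 2) ^ k := by
  classical
  unfold clearDenom
  rw [Nat.cast_pow, map_pow]
  refine pow_le_pow_left₀ (apply_nonneg _ _) ?_ k
  rw [← Finset.mul_prod_erase S _ hv, Nat.cast_mul, map_mul]
  calc FinitePlace.mk v ((Ideal.absNorm v.asIdeal : ℕ) : L) *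
        FinitePlace.mk v ((∏ x ∈ S.erase v, Ideal.absNorm x.asIdeal : ℕ) : L)
      ≤ (1 / 2) * 1 := by
        refine mul_le_mul (finitePlace_mk_absNorm_le v) (finitePlace_mk_natCast_le_one v _)
          (apply_nonneg _ _) (by norm_num)
    _ = 1 / 2 := mul_one _

variable (L)

/-- **(B2)+(B3)** only finitely many `S`-units have all logarithmic coordinates bounded by `r`.
In particular `logS` has finite kernel and discrete image. -/
theorem finite_logS_le (r : ℝ) :
    {x : Additive (SUnit L S) | ∀ t, |logS L S x t| ≤ r}.Finite := by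
  classical
  obtain ⟨k, hk⟩ : ∃ k : ℕ, Real.exp r ≤ 2 ^ k := by
    obtain ⟨k, hk⟩ := pow_unbounded_of_one_lt (Real.exp r) (by norm_num : (1 : ℝ) < 2)
    exact ⟨k, hk.le⟩
  set d : ℕ := clearDenom S k with hd
  have hd0 : (d : L) ≠ 0 := Nat.cast_ne_zero.2 (clearDenom_ne_zero S k)
  set B : ℝ := d * Real.exp r with hB
  have hfin := Embeddings.finite_of_norm_le L ℂ B
  let f : Additive (SUnit L S) → L := fun x => (d : L) * (((Additive.toMul x : SUnit L S) : Lˣ) : L)
  have hf : Function.Injective f := by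
    intro x y hxy
    have h1 : (((Additive.toMul x : SUnit L S) : Lˣ) : L) =
        (((Additive.toMul y : SUnit L S) : Lˣ) : L) := mul_left_cancel₀ hd0 hxy
    have h2 : (Additive.toMul x : SUnit L S) = Additive.toMul y :=
      Subtype.ext (Units.ext h1)
    exact Additive.toMul.injective h2
  refine (hfin.preimage hf.injOn).subset ?_
  intro x hx
  simp only [Set.mem_ofPred_eq] at hx
  set y : SUnit L S := Additive.toMul x with hy
  have hy0 : ((y : Lˣ) : L) ≠ 0 := Units.ne_zero _
  simp only [Set.mem_preimage, Set.mem_ofPred_eq, f]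
  constructor
  · -- integrality
    have hmem : (d : L) * ((y : Lˣ) : L) ∈ (algebraMap (𝓞 L) L).range := by
      refine HeightOneSpectrum.mem_integers_of_valuation_le_one L _ fun v => ?_
      rw [← finitePlace_mk_le_one_iff]
      rw [map_mul]
      by_cases hv : v ∈ S
      · have h1 := finitePlace_mk_clearDenom_le S hv k
        have h2 : FinitePlace.mk v ((y : Lˣ) : L) ≤ Real.exp r := by
          have h3 := hx (Sum.inr ⟨v, hv⟩)
          rw [logS_apply, logComp_inr] at h3
          have h4 := (abs_le.1 h3).2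
          calc FinitePlace.mk v ((y : Lˣ) : L)
              = Real.exp (Real.log (FinitePlace.mk v ((y : Lˣ) : L))) :=
                (Real.exp_log (finitePlace_mk_pos v hy0)).symm
            _ ≤ Real.exp r := Real.exp_le_exp.2 h4
        calc FinitePlace.mk v ((d : ℕ) : L) * FinitePlace.mk v ((y : Lˣ) : L)
            ≤ (1 / 2) ^ k * 2 ^ k :=
              mul_le_mul h1 (h2.trans hk) (apply_nonneg _ _) (by positivity)
          _ = 1 := by rw [← mul_pow]; norm_num
      · rw [sUnit_finitePlace_eq_one y hv, mul_one]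
        exact finitePlace_mk_natCast_le_one v d
    obtain ⟨z, hz⟩ := hmem
    rw [← hz]
    exact z.isIntegral_coe
  · intro φ
    rw [map_mul, norm_mul, map_natCast, Complex.norm_natCast, hB]
    refine mul_le_mul_of_nonneg_left ?_ (Nat.cast_nonneg _)
    have h3 := hx (Sum.inl (InfinitePlace.mk φ))
    rw [logS_apply, logComp_inl] at h3
    have h4 := (abs_le.1 h3).2
    have hpos : 0 < (InfinitePlace.mk φ) ((y : Lˣ) : L) :=
      (InfinitePlace.pos_iff).2 hy0
    rw [← InfinitePlace.apply φ]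
    by_cases hlog : Real.log ((InfinitePlace.mk φ) ((y : Lˣ) : L)) ≤ 0
    · calc (InfinitePlace.mk φ) ((y : Lˣ) : L)
          = Real.exp (Real.log ((InfinitePlace.mk φ) ((y : Lˣ) : L))) := (Real.exp_log hpos).symm
        _ ≤ Real.exp 0 := Real.exp_le_exp.2 hlog
        _ ≤ Real.exp r := Real.exp_le_exp.2 ((abs_nonneg _).trans h3)
    · push Not at hlog
      have h5 : Real.log ((InfinitePlace.mk φ) ((y : Lˣ) : L)) ≤ r := by
        calc Real.log ((InfinitePlace.mk φ) ((y : Lˣ) : L))
            = 1 * Real.log ((InfinitePlace.mk φ) ((y : Lˣ) : L)) := (one_mul _).symm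
          _ ≤ ((InfinitePlace.mk φ).mult : ℝ) * Real.log ((InfinitePlace.mk φ) ((y : Lˣ) : L)) :=
              mul_le_mul_of_nonneg_right InfinitePlace.one_le_mult hlog.le
          _ ≤ r := h4
      calc (InfinitePlace.mk φ) ((y : Lˣ) : L)
          = Real.exp (Real.log ((InfinitePlace.mk φ) ((y : Lˣ) : L))) := (Real.exp_log hpos).symm
        _ ≤ Real.exp r := Real.exp_le_exp.2 h5

end Fermat.Agent.S55.H604
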