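import Fermat.Agent.S55.H604.SUnitSpan
import Fermat.Agent.S55.H604.IndexNSmul
import Mathlib.Algebra.Module.ZLattice.Basic

/-!
# S55 / arithmetic leaf: Dirichlet's `S`-unit theorem

The logarithmic image of the `S`-units is a `ℤ`-lattice of rank `#(∞ ⊔ S) - 1`, the kernel of the
logarithm is finite, and `[E_S : E_S^n] = #μ_n · n ^ (#(∞ ⊔ S) - 1)`.
-/

set_option autoImplicit false

open NumberField IsDedekindDomain Module

namespace Fermat.Agent.S55.H604

variable (L : Type*) [Field L] [NumberField L] (S : Finset (HeightOneSpectrum (𝓞 L)))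

/-- The lattice of logarithms of `S`-units. -/
noncomputable def sUnitLattice : Submodule ℤ (PlaceIdx L S → ℝ) :=
  LinearMap.range (logS L S).toIntLinearMap

lemma mem_sUnitLattice {f : PlaceIdx L S → ℝ} :
    f ∈ sUnitLattice L S ↔ ∃ x, logS L S x = f := Iff.rfl

lemma coe_sUnitLattice :
    (sUnitLattice L S : Set (PlaceIdx L S → ℝ)) = Set.range (logS L S) := rfl

lemma sUnitLattice_inter_ball_finite (r : ℝ) :
    ((sUnitLattice L S : Set (PlaceIdx L S → ℝ)) ∩ Metric.closedBall 0 r).Finite := by
  by_cases hr : 0 ≤ r
  · refine ((finite_logS_le L S r).image (logS L S)).subset ?_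
    rintro _ ⟨⟨x, rfl⟩, hx⟩
    refine ⟨x, ?_, rfl⟩
    intro t
    rw [mem_closedBall_zero_iff, pi_norm_le_iff_of_nonneg hr] at hx
    simpa [Real.norm_eq_abs] using hx t
  · rw [Metric.closedBall_eq_empty.2 (not_le.1 hr), Set.inter_empty]
    exact Set.finite_empty

instance instDiscrete_sUnitLattice : DiscreteTopology (sUnitLattice L S) := by
  classical
  refine discreteTopology_of_isOpen_singleton_zero ?_
  refine isOpen_singleton_of_finite_mem_nhds 0 (s := Metric.closedBall 0 1) ?_ ?_
  · exact Metric.closedBall_mem_nhds _ (by simp)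
  · refine Set.Finite.of_finite_image ?_ (Set.injOn_of_injective Subtype.val_injective)
    refine (sUnitLattice_inter_ball_finite L S 1).subset ?_
    rintro _ ⟨x, hx, rfl⟩
    exact ⟨Subtype.mem x, hx⟩

/-- the kernel of the logarithm is finite. -/
instance finite_ker_logS : Finite (logS L S).ker := by
  have h := finite_logS_le L S 0
  refine Set.Finite.subset h ?_ |>.to_subtype
  intro x hx
  have hx' : logS L S x = 0 := hx
  intro t
  simp [hx']

lemma finrank_hyperplane :
    finrank ℝ (hyperplane L S) = Fintype.card (InfinitePlace L) + S.card - 1 := by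
  classical
  set φ : (PlaceIdx L S → ℝ) →ₗ[ℝ] ℝ := ∑ t : PlaceIdx L S, LinearMap.proj t with hφ
  have hsurj : LinearMap.range φ = ⊤ := by
    rw [LinearMap.range_eq_top]
    intro c
    obtain ⟨w⟩ : Nonempty (InfinitePlace L) := inferInstance
    refine ⟨Pi.single (Sum.inl w) c, ?_⟩
    rw [hφ, LinearMap.sum_apply]
    simp only [LinearMap.proj_apply]
    rw [Finset.sum_eq_single (Sum.inl w : PlaceIdx L S)]
    · simp
    · intro t _ ht
      simp [Pi.single_apply, ht]
    · intro h
      exact absurd (Finset.mem_univ _) h
  have h := LinearMap.finrank_range_add_finrank_ker φ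
  rw [hsurj, finrank_top, Module.finrank_self, Module.finrank_fintype_fun_eq_card,
    Fintype.card_sum, Fintype.card_coe] at h
  have : finrank ℝ (hyperplane L S) = finrank ℝ (LinearMap.ker φ) := rfl
  omega

/-- **Dirichlet's `S`-unit theorem (rank).** -/
theorem finrank_sUnitLattice :
    finrank ℤ (sUnitLattice L S) = Fintype.card (InfinitePlace L) + S.card - 1 := by
  have hd : DiscreteTopology (Submodule.span ℤ (sUnitLattice L S : Set (PlaceIdx L S → ℝ))) := by
    rw [Submodule.span_eq]
    infer_instance
  have h := Real.finrank_eq_int_finrank_of_discrete hd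
  rw [Set.finrank, Set.finrank, Submodule.span_eq, coe_sUnitLattice, span_logS,
    finrank_hyperplane] at h
  exact h.symm

/-- the logarithm, corestricted to the lattice. -/
noncomputable def logSLattice : Additive (SUnit L S) →+ sUnitLattice L S :=
  (logS L S).codRestrict (sUnitLattice L S).toAddSubgroup (fun x => ⟨x, rfl⟩)

lemma logSLattice_surjective : Function.Surjective (logSLattice L S) := by
  rintro ⟨_, x, rfl⟩
  exact ⟨x, rfl⟩

lemma ker_logSLattice : (logSLattice L S).ker = (logS L S).ker := by
  ext x
  simp only [AddMonoidHom.mem_ker]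
  constructor
  · intro h
    exact congrArg Subtype.val h
  · intro h
    exact Subtype.ext h

instance finite_ker_logSLattice : Finite (logSLattice L S).ker := by
  rw [ker_logSLattice]
  infer_instance

/-- **`S`-unit power index, additive form.** -/
theorem index_range_nsmul_sUnit (n : ℕ) (hn : n ≠ 0) :
    (nsmulAddMonoidHom (α := Additive (SUnit L S)) n).range.index =
      Nat.card (nsmulAddMonoidHom (α := Additive (SUnit L S)) n).ker *
        n ^ (Fintype.card (InfinitePlace L) + S.card - 1) := by
  rw [← finrank_sUnitLattice L S]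
  exact index_range_nsmul_of_finite_ker (logSLattice L S) (logSLattice_surjective L S) n hn

end Fermat.Agent.S55.H604
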