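import Mathlib.NumberTheory.NumberField.ProductFormula
import Mathlib.NumberTheory.NumberField.Units.DirichletTheorem
import Mathlib.RingTheory.DedekindDomain.SInteger
import Mathlib.NumberTheory.NumberField.ClassNumber

/-!
# S55 / layer G / leaf HQU, part (B): the logarithmic lattice of the `S`-units

`L` a number field, `S` a finite set of finite places of `L`, `T = ∞ ⊔ S`.
We define `logS : Additive (S-units) →+ (T → ℝ)` and prove

* `sum_logS` : the coordinates sum to `0` (product formula),
* `finite_logS_le` : only finitely many `S`-units have all coordinates bounded by `r`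
  (so the kernel is finite and the image is discrete),
* (in later files) the image spans the hyperplane, and equivariance.
-/

set_option autoImplicit false

open NumberField IsDedekindDomain

namespace Fermat.Agent.S55.H604

variable (L : Type*) [Field L] [NumberField L] (S : Finset (HeightOneSpectrum (𝓞 L)))

/-- The index set `∞ ⊔ S` of places. -/
abbrev PlaceIdx : Type _ := InfinitePlace L ⊕ {v : HeightOneSpectrum (𝓞 L) // v ∈ S}

/-- The `S`-units of `L` as a subgroup of `Lˣ` (Mathlib's `Set.unit`). -/
noncomputable abbrev SUnit : Subgroup Lˣ := (S : Set (HeightOneSpectrum (𝓞 L))).unit L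

variable {L}

/-- The finite absolute value attached to `v` is `1` iff the valuation is `1`. -/
lemma finitePlace_mk_eq_one_iff (v : HeightOneSpectrum (𝓞 L)) (x : L) :
    FinitePlace.mk v x = 1 ↔ v.valuation L x = 1 := by
  rw [FinitePlace.mk_apply, FinitePlace.norm_embedding, NumberField.HeightOneSpectrum.adicAbv_def]
  rw [show ((1 : ℝ) = ((1 : NNReal) : ℝ)) by simp, NNReal.coe_inj]
  exact WithZeroMulInt.toNNReal_eq_one_iff _ _
    (NumberField.HeightOneSpectrum.one_lt_absNorm_nnreal v).ne'

/-- The finite absolute value attached to `v` is `≤ 1` iff the valuation is `≤ 1`. -/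
lemma finitePlace_mk_le_one_iff (v : HeightOneSpectrum (𝓞 L)) (x : L) :
    FinitePlace.mk v x ≤ 1 ↔ v.valuation L x ≤ 1 := by
  rw [FinitePlace.mk_apply, FinitePlace.norm_embedding, NumberField.HeightOneSpectrum.adicAbv_def]
  rw [show ((1 : ℝ) = ((1 : NNReal) : ℝ)) by simp, NNReal.coe_le_coe]
  exact WithZeroMulInt.toNNReal_le_one_iff (NumberField.HeightOneSpectrum.one_lt_absNorm_nnreal v)

lemma finitePlace_mk_pos (v : HeightOneSpectrum (𝓞 L)) {x : L} (hx : x ≠ 0) :
    0 < FinitePlace.mk v x := FinitePlace.pos_iff.2 hx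

variable (L)

/-- The coordinate functions of the logarithmic map. -/
noncomputable def logComp (t : PlaceIdx L S) (x : L) : ℝ :=
  match t with
  | Sum.inl w => (w.mult : ℝ) * Real.log (w x)
  | Sum.inr v => Real.log (FinitePlace.mk v.1 x)

@[simp] lemma logComp_inl (w : InfinitePlace L) (x : L) :
    logComp L S (Sum.inl w) x = (w.mult : ℝ) * Real.log (w x) := rfl

@[simp] lemma logComp_inr (v : {v : HeightOneSpectrum (𝓞 L) // v ∈ S}) (x : L) :
    logComp L S (Sum.inr v) x = Real.log (FinitePlace.mk v.1 x) := rfl

lemma logComp_one (t : PlaceIdx L S) : logComp L S t 1 = 0 := by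
  cases t <;> simp

lemma logComp_mul (t : PlaceIdx L S) {x y : L} (hx : x ≠ 0) (hy : y ≠ 0) :
    logComp L S t (x * y) = logComp L S t x + logComp L S t y := by
  cases t with
  | inl w =>
    simp only [logComp_inl, map_mul]
    rw [Real.log_mul ((map_ne_zero w).2 hx) ((map_ne_zero w).2 hy)]
    ring
  | inr v =>
    simp only [logComp_inr, map_mul]
    rw [Real.log_mul (finitePlace_mk_pos v.1 hx).ne' (finitePlace_mk_pos v.1 hy).ne']

/-- The logarithmic map on the `S`-units. -/
noncomputable def logS : Additive (SUnit L S) →+ (PlaceIdx L S → ℝ) where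
  toFun x := fun t => logComp L S t (((Additive.toMul x : SUnit L S) : Lˣ) : L)
  map_zero' := by
    funext t
    simp [logComp_one]
  map_add' x y := by
    funext t
    simp only [toMul_add, Subgroup.coe_mul, Units.val_mul, Pi.add_apply]
    exact logComp_mul L S t (Units.ne_zero _) (Units.ne_zero _)

lemma logS_apply (x : Additive (SUnit L S)) (t : PlaceIdx L S) :
    logS L S x t = logComp L S t (((Additive.toMul x : SUnit L S) : Lˣ) : L) := rfl

variable {L S}

/-- an `S`-unit has absolute value `1` at every finite place outside `S`. -/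
lemma sUnit_finitePlace_eq_one (x : SUnit L S) {v : HeightOneSpectrum (𝓞 L)} (hv : v ∉ S) :
    FinitePlace.mk v ((x : Lˣ) : L) = 1 :=
  (finitePlace_mk_eq_one_iff v _).2
    (Set.unit_valuation_eq_one (S : Set (HeightOneSpectrum (𝓞 L))) L x (by simpa using hv))


/-- the finite part of the product formula for an `S`-unit only involves `S`. -/
lemma finprod_finitePlace_sUnit (x : SUnit L S) :
    ∏ᶠ w : FinitePlace L, w ((x : Lˣ) : L) = ∏ v ∈ S, FinitePlace.mk v ((x : Lˣ) : L) := by
  have h1 : ∏ᶠ w : FinitePlace L, w ((x : Lˣ) : L) =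
      ∏ᶠ v : HeightOneSpectrum (𝓞 L), FinitePlace.mk v ((x : Lˣ) : L) := by
    refine (finprod_eq_of_bijective (fun v => FinitePlace.mk v) ?_ (fun v => rfl)).symm
    refine ⟨fun v₁ v₂ h => FinitePlace.mk_eq_iff.1 h, fun w => ⟨w.maximalIdeal, ?_⟩⟩
    exact FinitePlace.mk_maximalIdeal w
  rw [h1]
  refine finprod_eq_prod_of_mulSupport_subset _ ?_
  intro v hv
  by_contra hvS
  exact hv (sUnit_finitePlace_eq_one x hvS)

variable (L S)

/-- **(B1)** the coordinates of `logS x` sum to zero (product formula). -/
theorem sum_logS (x : Additive (SUnit L S)) : ∑ t, logS L S x t = 0 := by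
  set y : SUnit L S := Additive.toMul x with hy
  have hx0 : ((y : Lˣ) : L) ≠ 0 := Units.ne_zero _
  have hprod := prod_abs_eq_one hx0
  rw [finprod_finitePlace_sUnit y] at hprod
  have hlog := congrArg Real.log hprod
  rw [Real.log_one, Real.log_mul, Real.log_prod, Real.log_prod] at hlog
  · rw [Fintype.sum_sum_type]
    simp only [logS_apply, logComp_inl, logComp_inr]
    rw [← hlog]
    congr 1
    · refine Finset.sum_congr rfl fun w _ => ?_
      rw [Real.log_pow]
    · rw [← Finset.sum_coe_sort S (fun v => Real.log (FinitePlace.mk v ((y : Lˣ) : L)))]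
  · intro v _
    exact (finitePlace_mk_pos v hx0).ne'
  · intro w _
    exact pow_ne_zero _ ((map_ne_zero w).2 hx0)
  · exact Finset.prod_ne_zero_iff.2 fun w _ => pow_ne_zero _ ((map_ne_zero w).2 hx0)
  · exact Finset.prod_ne_zero_iff.2 fun v _ => (finitePlace_mk_pos v hx0).ne'

end Fermat.Agent.S55.H604
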