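import Fermat.Agent.S55.H604.SUnitFinite

/-!
# S55 / HQU (B4): the logarithmic image of the `S`-units spans the sum-zero hyperplane
-/

set_option autoImplicit false

open NumberField IsDedekindDomain

namespace Fermat.Agent.S55.H604

variable (L : Type*) [Field L] [NumberField L] (S : Finset (HeightOneSpectrum (𝓞 L)))

/-- The sum-zero hyperplane of `ℝ^(∞ ⊔ S)`. -/
noncomputable def hyperplane : Submodule ℝ (PlaceIdx L S → ℝ) :=
  LinearMap.ker (∑ t : PlaceIdx L S, LinearMap.proj t : (PlaceIdx L S → ℝ) →ₗ[ℝ] ℝ)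

lemma mem_hyperplane {f : PlaceIdx L S → ℝ} : f ∈ hyperplane L S ↔ ∑ t, f t = 0 := by
  simp [hyperplane, LinearMap.mem_ker, LinearMap.sum_apply]

variable {L}

lemma valuation_unit_eq_one (v : HeightOneSpectrum (𝓞 L)) (u : (𝓞 L)ˣ) :
    v.valuation L (((u : 𝓞 L) : L)) = 1 := by
  rw [HeightOneSpectrum.valuation_eq_one_iff_notMem]
  intro h
  exact v.isPrime.ne_top (Ideal.eq_top_of_isUnit_mem _ h u.isUnit)

variable (L)

/-- units of `𝓞 L` as `S`-units. -/
noncomputable def unitToSUnit : (𝓞 L)ˣ →* SUnit L S :=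
  (Units.map ((algebraMap (𝓞 L) L : 𝓞 L →+* L) : 𝓞 L →* L)).codRestrict (SUnit L S)
    (fun u v _ => valuation_unit_eq_one v u)

@[simp] lemma coe_unitToSUnit (u : (𝓞 L)ˣ) :
    (((unitToSUnit L S u : SUnit L S) : Lˣ) : L) = ((u : 𝓞 L) : L) := rfl

lemma logS_unit_inl (u : (𝓞 L)ˣ) (w : InfinitePlace L) :
    logS L S (Additive.ofMul (unitToSUnit L S u)) (Sum.inl w) =
      (w.mult : ℝ) * Real.log (w ((u : 𝓞 L) : L)) := rfl

lemma logS_unit_inr (u : (𝓞 L)ˣ) (v : {v : HeightOneSpectrum (𝓞 L) // v ∈ S}) :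
    logS L S (Additive.ofMul (unitToSUnit L S u)) (Sum.inr v) = 0 := by
  rw [logS_apply, logComp_inr]
  have : FinitePlace.mk v.1 (((u : 𝓞 L) : L)) = 1 :=
    (finitePlace_mk_eq_one_iff v.1 _).2 (valuation_unit_eq_one v.1 u)
  simp only [toMul_ofMul, coe_unitToSUnit]
  rw [this, Real.log_one]


variable {L}

lemma finitePlace_mk_lt_one_iff (v : HeightOneSpectrum (𝓞 L)) (x : L) :
    FinitePlace.mk v x < 1 ↔ v.valuation L x < 1 := by
  rw [lt_iff_le_and_ne, lt_iff_le_and_ne, finitePlace_mk_le_one_iff, Ne, Ne,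
    finitePlace_mk_eq_one_iff]

/-- a generator of a power of the prime `v`: an element of `𝓞 L` which is a non-unit exactly
at `v`. -/
lemma exists_generator_pow (v : HeightOneSpectrum (𝓞 L)) :
    ∃ a : 𝓞 L, a ≠ 0 ∧ v.valuation L (a : L) < 1 ∧
      ∀ v' : HeightOneSpectrum (𝓞 L), v' ≠ v → v'.valuation L (a : L) = 1 := by
  classical
  set h : ℕ := Fintype.card (ClassGroup (𝓞 L)) with hh
  have hpos : 0 < h := Fintype.card_pos
  have hI0 : v.asIdeal ≠ ⊥ := v.ne_bot
  have hmem : v.asIdeal ∈ nonZeroDivisors (Ideal (𝓞 L)) := mem_nonZeroDivisors_of_ne_zero hI0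
  have hmemh : v.asIdeal ^ h ∈ nonZeroDivisors (Ideal (𝓞 L)) := pow_mem hmem h
  have hprinc : (v.asIdeal ^ h).IsPrincipal := by
    rw [← ClassGroup.mk0_eq_one_iff hmemh]
    have : (⟨v.asIdeal ^ h, hmemh⟩ : nonZeroDivisors (Ideal (𝓞 L))) = ⟨v.asIdeal, hmem⟩ ^ h := by
      ext; rfl
    rw [this, map_pow, hh]
    exact pow_card_eq_one
  obtain ⟨a, ha⟩ := hprinc.principal
  have ha' : v.asIdeal ^ h = Ideal.span {a} := ha
  have ha0 : a ≠ 0 := by
    rintro rfl
    have : v.asIdeal ^ h = ⊥ := by rw [ha']; simp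
    exact hI0 (pow_eq_zero_iff hpos.ne' |>.1 this)
  have key : ∀ v' : HeightOneSpectrum (𝓞 L), a ∈ v'.asIdeal ↔ v' = v := by
    intro v'
    rw [← Ideal.span_singleton_le_iff_mem, ← ha', Ideal.IsPrime.pow_le_iff hpos.ne']
    constructor
    · intro hle
      exact HeightOneSpectrum.ext (v.isMaximal.eq_of_le v'.isPrime.ne_top hle).symm
    · rintro rfl
      exact le_rfl
  refine ⟨a, ha0, ?_, ?_⟩
  · rw [HeightOneSpectrum.valuation_lt_one_iff_mem]
    exact (key v).2 rfl
  · intro v' hv'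
    rw [HeightOneSpectrum.valuation_eq_one_iff_notMem]
    exact fun hm => hv' ((key v').1 hm)

variable (L)

/-- for `v ∈ S` there is an `S`-unit whose logarithm is nonzero at `v` and zero at the other
places of `S`. -/
lemma exists_sUnit_single (v : {v : HeightOneSpectrum (𝓞 L) // v ∈ S}) :
    ∃ x : Additive (SUnit L S), logS L S x (Sum.inr v) ≠ 0 ∧
      ∀ v' : {v : HeightOneSpectrum (𝓞 L) // v ∈ S}, v' ≠ v → logS L S x (Sum.inr v') = 0 := by
  obtain ⟨a, ha0, ha1, ha2⟩ := exists_generator_pow v.1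
  have haL : ((a : 𝓞 L) : L) ≠ 0 := by
    simp [ha0]
  have hmem : Units.mk0 ((a : 𝓞 L) : L) haL ∈ SUnit L S := by
    intro v' hv'
    refine ha2 v' ?_
    rintro rfl
    exact hv' (Finset.mem_coe.2 v.2)
  refine ⟨Additive.ofMul ⟨Units.mk0 _ haL, hmem⟩, ?_, ?_⟩
  · rw [logS_apply, logComp_inr]
    simp only [toMul_ofMul, Units.val_mk0]
    have h1 : FinitePlace.mk v.1 ((a : 𝓞 L) : L) < 1 := (finitePlace_mk_lt_one_iff v.1 _).2 ha1
    exact (Real.log_neg (finitePlace_mk_pos v.1 haL) h1).ne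
  · intro v' hv'
    rw [logS_apply, logComp_inr]
    simp only [toMul_ofMul, Units.val_mk0]
    have h1 : FinitePlace.mk v'.1 ((a : 𝓞 L) : L) = 1 :=
      (finitePlace_mk_eq_one_iff v'.1 _).2 (ha2 v'.1 (fun h => hv' (Subtype.ext h)))
    rw [h1, Real.log_one]


open NumberField.Units NumberField.Units.dirichletUnitTheorem in
/-- restriction of a function on `∞ ⊔ S` to the infinite places different from `w₀`. -/
noncomputable def restrictInf : (PlaceIdx L S → ℝ) →ₗ[ℝ] logSpace L :=
  LinearMap.funLeft ℝ ℝ (fun w : {w : InfinitePlace L // w ≠ w₀} => (Sum.inl w.1 : PlaceIdx L S))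

open NumberField.Units NumberField.Units.dirichletUnitTheorem in
lemma restrictInf_apply (f : PlaceIdx L S → ℝ) (w : {w : InfinitePlace L // w ≠ w₀}) :
    restrictInf L S f w = f (Sum.inl w.1) := rfl

open NumberField.Units NumberField.Units.dirichletUnitTheorem in
lemma restrictInf_logS_unit (u : (𝓞 L)ˣ) :
    restrictInf L S (logS L S (Additive.ofMul (unitToSUnit L S u))) =
      logEmbedding L (Additive.ofMul u) := rfl

/-- the span of the logarithms of the units. -/
noncomputable def unitSpan : Submodule ℝ (PlaceIdx L S → ℝ) :=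
  Submodule.span ℝ (Set.range fun u : (𝓞 L)ˣ => logS L S (Additive.ofMul (unitToSUnit L S u)))

lemma unitSpan_le : unitSpan L S ≤ Submodule.span ℝ (Set.range (logS L S)) := by
  refine Submodule.span_mono ?_
  rintro _ ⟨u, rfl⟩
  exact ⟨_, rfl⟩

lemma span_logS_le : Submodule.span ℝ (Set.range (logS L S)) ≤ hyperplane L S := by
  rw [Submodule.span_le]
  rintro _ ⟨x, rfl⟩
  exact (mem_hyperplane L S).2 (sum_logS L S x)

lemma unitSpan_inr {f : PlaceIdx L S → ℝ} (hf : f ∈ unitSpan L S)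
    (v : {v : HeightOneSpectrum (𝓞 L) // v ∈ S}) : f (Sum.inr v) = 0 := by
  have hle : unitSpan L S ≤ LinearMap.ker (LinearMap.proj (Sum.inr v : PlaceIdx L S) :
      (PlaceIdx L S → ℝ) →ₗ[ℝ] ℝ) := by
    rw [unitSpan, Submodule.span_le]
    rintro _ ⟨u, rfl⟩
    exact logS_unit_inr L S u v
  exact hle hf

open NumberField.Units NumberField.Units.dirichletUnitTheorem in
lemma map_restrictInf_unitSpan : Submodule.map (restrictInf L S) (unitSpan L S) = ⊤ := by
  rw [unitSpan, Submodule.map_span, ← Set.range_comp]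
  rw [eq_top_iff, ← unitLattice_span_eq_top L]
  refine Submodule.span_mono ?_
  rintro _ ⟨x, -, rfl⟩
  exact ⟨Additive.toMul x, rfl⟩

open NumberField.Units NumberField.Units.dirichletUnitTheorem in
/-- a sum-zero function vanishing on `S` is in the span of the logarithms of units. -/
lemma mem_unitSpan_of_inr_eq_zero {f : PlaceIdx L S → ℝ} (hf : f ∈ hyperplane L S)
    (hS : ∀ v, f (Sum.inr v) = 0) : f ∈ unitSpan L S := by
  classical
  have h1 : restrictInf L S f ∈ Submodule.map (restrictInf L S) (unitSpan L S) := by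
    rw [map_restrictInf_unitSpan]; trivial
  obtain ⟨g, hg, hgf⟩ := h1
  have hgH : g ∈ hyperplane L S := span_logS_le L S (unitSpan_le L S hg)
  suffices f = g by rw [this]; exact hg
  have hd : ∀ t : PlaceIdx L S, t ≠ Sum.inl w₀ → (f - g) t = 0 := by
    intro t ht
    cases t with
    | inl w =>
      have hw : w ≠ w₀ := fun h => ht (by rw [h])
      have := congrFun hgf ⟨w, hw⟩
      simp only [restrictInf_apply] at this
      simp [this]
    | inr v => simp [hS v, unitSpan_inr L S hg v]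
  have hsum : ∑ t, (f - g) t = 0 := by
    have := (mem_hyperplane L S).1 (Submodule.sub_mem _ hf hgH)
    exact this
  rw [Finset.sum_eq_single (Sum.inl w₀ : PlaceIdx L S) (fun t _ ht => hd t ht)
    (fun h => absurd (Finset.mem_univ _) h)] at hsum
  funext t
  by_cases ht : t = Sum.inl w₀
  · rw [ht]; exact sub_eq_zero.1 hsum
  · exact sub_eq_zero.1 (hd t ht)

/-- **(B4)** the logarithms of the `S`-units span the sum-zero hyperplane. -/
theorem span_logS : Submodule.span ℝ (Set.range (logS L S)) = hyperplane L S := by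
  classical
  refine le_antisymm (span_logS_le L S) ?_
  intro f hf
  choose x hx1 hx2 using exists_sUnit_single L S
  set W := Submodule.span ℝ (Set.range (logS L S)) with hW
  have hxW : ∀ v, logS L S (x v) ∈ W := fun v => Submodule.subset_span ⟨_, rfl⟩
  set g : PlaceIdx L S → ℝ :=
    ∑ v : {v : HeightOneSpectrum (𝓞 L) // v ∈ S},
      (f (Sum.inr v) / logS L S (x v) (Sum.inr v)) • logS L S (x v) with hg
  have hgW : g ∈ W := Submodule.sum_mem _ fun v _ => Submodule.smul_mem _ _ (hxW v)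
  have hgS : ∀ v, g (Sum.inr v) = f (Sum.inr v) := by
    intro v
    rw [hg, Finset.sum_apply, Finset.sum_eq_single v]
    · simp only [Pi.smul_apply, smul_eq_mul]
      exact div_mul_cancel₀ _ (hx1 v)
    · intro v' _ hv'
      simp only [Pi.smul_apply, smul_eq_mul]
      rw [hx2 v' v (Ne.symm hv'), mul_zero]
    · intro h; exact absurd (Finset.mem_univ _) h
  have hfg : f - g ∈ unitSpan L S := by
    refine mem_unitSpan_of_inr_eq_zero L S
      (Submodule.sub_mem _ hf (span_logS_le L S hgW)) fun v => ?_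
    simp [hgS v]
  have := Submodule.add_mem _ (unitSpan_le L S hfg) hgW
  simpa using this

end Fermat.Agent.S55.H604
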